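import Fermat.Agent.S25.H267.SurjCurve
import Fermat.Agent.S25.H747.AlgAbelOfSurj

/-!
# S25 / block ABEL, sub-block AB-ALG: `Stmt.AlgAbel` PROVED (helper267)

`stmtAA6` is leaf AA6 (`H747.StmtAA6`, surjectivity of the Abel family) and
`algAbel : H746.Stmt.AlgAbel k B₀ B₁ B₀₁` is the frozen statement of the sub-block, obtained
from helper747's `H747.algAbel_of_surj` (AA1, AA3, AA5 by helper747, AA2 by helper927, AA4 by
helper266).
-/

set_option autoImplicit false

universe u

open scoped TensorProduct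

namespace Fermat.Agent.S25.H267

open Fermat.Agent.S25

variable (k : Type u) [Field k] [IsAlgClosed k]
  (B₀ B₁ B₀₁ : Type u) [CommRing B₀] [CommRing B₁] [CommRing B₀₁]
  [Algebra k B₀] [Algebra k B₁] [Algebra k B₀₁] [Algebra B₀ B₀₁] [Algebra B₁ B₀₁]
  [IsScalarTower k B₀ B₀₁] [IsScalarTower k B₁ B₀₁]

/-- Leaf **AA6** in the form consumed by `H747.algAbel_of_surj`. -/
theorem stmtAA6 : H747.StmtAA6 k B₀ B₁ B₀₁ :=
  fun _ _ _ hC K _ _ _ G hG => abelDatum_surj hC K G hG

/-- **`Stmt.AlgAbel`**: every curve chart has an algebraic Abel family. -/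
theorem algAbel : H746.Stmt.AlgAbel k B₀ B₁ B₀₁ :=
  H747.algAbel_of_surj (stmtAA6 k B₀ B₁ B₀₁)

end Fermat.Agent.S25.H267
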