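import Mathlib

/-!
# S25 / AB-ALG, leaf AA6 (helper267): calculus of invertible modules

Mathlib only.  `R` a commutative ring, `N`, `J` invertible `R`-modules.

* `exists_dual_sum_eq_one`: partition of unity `∑ ℓᵢ(nᵢ) = 1`.
* `bilin_swap`: every bilinear map on `N × N` is symmetric (rank one).
* `evalHom_bijective` (double dual): `N → Hom(Hom(N, J), J)` is bijective.
* `endScalar`: the scalar of an endomorphism of an invertible module.
* `finrank_quotient_smul_top`: `dim_K N/𝔞N = dim_K R/𝔞` when `R/𝔞` is finite-dimensional.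
-/

set_option autoImplicit false
set_option linter.style.haveILetI false
set_option linter.unusedSectionVars false

namespace Fermat.Agent.S25.H267

open TensorProduct Module

universe u

noncomputable section

section Partition

variable (R : Type*) [CommRing R] (N : Type*) [AddCommGroup N] [Module R N]
  [Module.Invertible R N]

/-- Partition of unity for an invertible module: finitely many linear forms `ℓᵢ` and elements
`nᵢ` with `∑ ℓᵢ(nᵢ) = 1`. -/
theorem exists_dual_sum_eq_one :
    ∃ S : Finset (Module.Dual R N × N), ∑ p ∈ S, p.1 p.2 = 1 := by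
  obtain ⟨t, ht⟩ := (Module.Invertible.bijective : Function.Bijective (contractLeft R N)).2 1
  obtain ⟨S, rfl⟩ := TensorProduct.exists_finset t
  exact ⟨S, by simpa using ht⟩

variable {R N}

/-- Rank one: every bilinear map on an invertible module is symmetric. -/
theorem bilin_swap {P : Type*} [AddCommGroup P] [Module R P] (β : N →ₗ[R] N →ₗ[R] P)
    (a b : N) : β a b = β b a := by
  have := congrArg (TensorProduct.lift β)
    (Module.Invertible.tmul_comm (R := R) (m₁ := a) (m₂ := b))
  simpa using this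

/-- Rank one: `ℓ a • b = ℓ b • a`. -/
theorem dual_smul_swap (ℓ : Module.Dual R N) (a b : N) : ℓ a • b = ℓ b • a :=
  bilin_swap ((LinearMap.lsmul R N).comp ℓ) a b

/-- Rank one, vector-valued form: `ℓ (f a) • b = ℓ (f b) • a`. -/
theorem hom_smul_swap {J : Type*} [AddCommGroup J] [Module R J] (f : N →ₗ[R] J)
    (μ : Module.Dual R J) (a b : N) : μ (f a) • b = μ (f b) • a :=
  dual_smul_swap (μ ∘ₗ f) a b

end Partition

section DoubleDual

variable {R : Type*} [CommRing R] {N J : Type*} [AddCommGroup N] [Module R N]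
  [AddCommGroup J] [Module R J]

variable (R N J) in
/-- The evaluation map `N → Hom(Hom(N, J), J)`. -/
def evalHomJ : N →ₗ[R] ((N →ₗ[R] J) →ₗ[R] J) := LinearMap.applyₗ

@[simp] theorem evalHomJ_apply (n : N) (f : N →ₗ[R] J) : evalHomJ R N J n f = f n := rfl

variable [Module.Invertible R N] [Module.Invertible R J]

/-- A left inverse of the evaluation map, built from partitions of unity. -/
def evalInv (S : Finset (Module.Dual R N × N)) (T : Finset (Module.Dual R J × J)) :
    ((N →ₗ[R] J) →ₗ[R] J) →ₗ[R] N :=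
  ∑ p ∈ S, ∑ q ∈ T,
    (LinearMap.toSpanSingleton R N p.2) ∘ₗ q.1 ∘ₗ
      (LinearMap.applyₗ (p.1.smulRight q.2) : ((N →ₗ[R] J) →ₗ[R] J) →ₗ[R] J)

theorem evalInv_apply (S : Finset (Module.Dual R N × N)) (T : Finset (Module.Dual R J × J))
    (Φ : (N →ₗ[R] J) →ₗ[R] J) :
    evalInv S T Φ = ∑ p ∈ S, ∑ q ∈ T, q.1 (Φ (p.1.smulRight q.2)) • p.2 := by
  simp [evalInv, LinearMap.sum_apply]

theorem evalInv_evalHomJ (S : Finset (Module.Dual R N × N)) (T : Finset (Module.Dual R J × J))
    (hS : ∑ p ∈ S, p.1 p.2 = 1) (hT : ∑ q ∈ T, q.1 q.2 = 1) (n : N) :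
    evalInv S T (evalHomJ R N J n) = n := by
  rw [evalInv_apply]
  have h1 : ∀ p ∈ S, ∑ q ∈ T, q.1 ((evalHomJ R N J n) (p.1.smulRight q.2)) • p.2
      = p.1 p.2 • n := by
    intro p _
    have : ∀ q ∈ T, q.1 ((evalHomJ R N J n) (p.1.smulRight q.2)) • p.2
        = q.1 q.2 • (p.1 p.2 • n) := by
      intro q _
      simp only [evalHomJ_apply, LinearMap.smulRight_apply, map_smul, smul_eq_mul]
      rw [mul_comm, mul_smul, dual_smul_swap p.1 n p.2]
    rw [Finset.sum_congr rfl this, ← Finset.sum_smul, hT, one_smul]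
  rw [Finset.sum_congr rfl h1, ← Finset.sum_smul, hS, one_smul]

/-- `Hom` of invertible modules is invertible. -/
theorem invertible_hom : Module.Invertible R (N →ₗ[R] J) :=
  Module.Invertible.congr (LinearEquiv.ofBijective (dualTensorHom R N J) dualTensorHom_bijective)

/-- **Double dual.** For invertible `N`, `J` the evaluation `N → Hom(Hom(N, J), J)` is
bijective. -/
theorem evalHomJ_bijective : Function.Bijective (evalHomJ R N J) := by
  obtain ⟨S, hS⟩ := exists_dual_sum_eq_one R N
  obtain ⟨T, hT⟩ := exists_dual_sum_eq_one R J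
  haveI : Module.Invertible R (N →ₗ[R] J) := invertible_hom
  haveI : Module.Invertible R ((N →ₗ[R] J) →ₗ[R] J) := invertible_hom
  have hl : Function.LeftInverse (evalInv S T) (evalHomJ R N J) := evalInv_evalHomJ S T hS hT
  have hr : Function.RightInverse (evalInv S T) (evalHomJ R N J) :=
    Module.Invertible.rightInverse_of_leftInverse hl
  exact ⟨hl.injective, hr.surjective⟩

end DoubleDual

section EndScalar

variable {R : Type*} [CommRing R] {J : Type*} [AddCommGroup J] [Module R J]
  [Module.Invertible R J]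

variable (R J) in
theorem lsmul_bijective : Function.Bijective (LinearMap.lsmul R J) := by
  have h := Module.Invertible.toModuleEnd_bijective R J
  refine ⟨fun a b hab => h.1 (LinearMap.ext fun j => LinearMap.congr_fun hab j), fun E => ?_⟩
  obtain ⟨c, hc⟩ := h.2 E
  exact ⟨c, LinearMap.ext fun j => LinearMap.congr_fun hc j⟩

variable (R J) in
/-- `R ≃ End_R(J)` for an invertible module `J`. -/
def endScalarEquiv : R ≃ₗ[R] Module.End R J :=
  LinearEquiv.ofBijective (LinearMap.lsmul R J) (lsmul_bijective R J)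

theorem endScalarEquiv_apply (c : R) (j : J) : endScalarEquiv R J c j = c • j := by
  rw [endScalarEquiv, LinearEquiv.ofBijective_apply, LinearMap.lsmul_apply]

theorem endScalarEquiv_symm_smul (E : Module.End R J) (j : J) :
    (endScalarEquiv R J).symm E • j = E j := by
  rw [← endScalarEquiv_apply, LinearEquiv.apply_symm_apply]

theorem eq_of_forall_smul_eq {c c' : R} (h : ∀ j : J, c • j = c' • j) : c = c' :=
  (endScalarEquiv R J).injective (LinearMap.ext fun j => by
    rw [endScalarEquiv_apply, endScalarEquiv_apply, h])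

end EndScalar

section Iota

variable {R : Type*} [CommRing R] {N J : Type*} [AddCommGroup N] [Module R N]
  [AddCommGroup J] [Module R J] [Module.Invertible R N] [Module.Invertible R J]

/-- For `s : J → N`, the map `ι = Hom(s, J) : Hom(N, J) → End J = R`. -/
def iotaMap (s : J →ₗ[R] N) : (N →ₗ[R] J) →ₗ[R] R :=
  (endScalarEquiv R J).symm.toLinearMap ∘ₗ (LinearMap.lcomp R J s)

theorem iotaMap_smul (s : J →ₗ[R] N) (f : N →ₗ[R] J) (j : J) :
    iotaMap s f • j = f (s j) := by
  simp only [iotaMap, LinearMap.coe_comp, LinearEquiv.coe_coe, Function.comp_apply]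
  rw [endScalarEquiv_symm_smul]
  rfl

variable [IsDomain R]

/-- Rank one: `ι(f) • n = s (f n)` as well. -/
theorem iotaMap_smul' (s : J →ₗ[R] N) (f : N →ₗ[R] J) (n : N) :
    iotaMap s f • n = s (f n) := by
  set c := iotaMap s f with hc
  set c' := (endScalarEquiv R N).symm (s ∘ₗ f) with hc'
  have h' : ∀ n : N, c' • n = s (f n) := fun n => by
    rw [hc', endScalarEquiv_symm_smul]; rfl
  have hcc : c = c' := by
    by_cases hf : ∃ n, f n ≠ 0
    · obtain ⟨n₀, hn₀⟩ := hf
      have h1 : c • f n₀ = c' • f n₀ := by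
        rw [hc, iotaMap_smul, ← h' n₀, map_smul]
      have h2 : (c - c') • f n₀ = 0 := by rw [sub_smul, h1, sub_self]
      rcases smul_eq_zero.mp h2 with h | h
      · exact sub_eq_zero.mp h
      · exact absurd h hn₀
    · push Not at hf
      have hz : c = 0 := eq_of_forall_smul_eq (J := J) fun j => by
        rw [hc, iotaMap_smul, hf, zero_smul]
      have hz' : c' = 0 := eq_of_forall_smul_eq (J := N) fun n => by
        rw [h', hf, map_zero, zero_smul]
      rw [hz, hz']
  rw [hcc, h']

theorem iotaMap_injective (s : J →ₗ[R] N) (hs : Function.Injective s) :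
    Function.Injective (iotaMap s) := by
  rw [← LinearMap.ker_eq_bot, LinearMap.ker_eq_bot']
  intro f hf
  ext n
  apply hs
  rw [← iotaMap_smul', hf, zero_smul, LinearMap.zero_apply, map_zero]

/-- The image of `s : J → N` is `𝔞 N`, where `𝔞` is the image of `ι`. -/
theorem range_iotaMap_smul_top (s : J →ₗ[R] N) :
    (LinearMap.range (iotaMap s) : Ideal R) • (⊤ : Submodule R N) = LinearMap.range s := by
  apply le_antisymm
  · rw [Submodule.smul_le]
    rintro _ ⟨f, rfl⟩ n -
    exact ⟨f n, (iotaMap_smul' s f n).symm⟩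
  · rintro _ ⟨j, rfl⟩
    obtain ⟨S, hS⟩ := exists_dual_sum_eq_one R N
    have hj : s j = ∑ p ∈ S, iotaMap s (p.1.smulRight j) • p.2 := by
      have : ∀ p ∈ S, iotaMap s (p.1.smulRight j) • p.2 = p.1 p.2 • s j := by
        intro p _
        rw [iotaMap_smul', LinearMap.smulRight_apply, map_smul]
      rw [Finset.sum_congr rfl this, ← Finset.sum_smul, hS, one_smul]
    rw [hj]
    exact Submodule.sum_mem _ fun p _ =>
      Submodule.smul_mem_smul ⟨_, rfl⟩ Submodule.mem_top

end Iota

section Nat

variable {R : Type*} [CommRing R] (J : Ideal R) (N : Type*) [AddCommGroup N] [Module R N]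

/-- The natural map `N → Hom(J, N)`, `n ↦ (j ↦ j • n)`, for an ideal `J`. -/
def natMap : N →ₗ[R] (J →ₗ[R] N) :=
  (LinearMap.lcomp R N J.subtype) ∘ₗ (LinearMap.lsmul R N).flip

variable {J N}

@[simp] theorem natMap_apply (n : N) (j : J) : natMap J N n j = (j : R) • n := rfl

theorem natMap_injective [IsDomain R] [Module.IsTorsionFree R N] (hJ : J ≠ ⊥) :
    Function.Injective (natMap J N) := by
  rw [← LinearMap.ker_eq_bot, LinearMap.ker_eq_bot']
  intro n hn
  obtain ⟨j, hj, hj0⟩ := Submodule.exists_mem_ne_zero_of_ne_bot hJ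
  have h := LinearMap.congr_fun hn ⟨j, hj⟩
  simp only [natMap_apply, LinearMap.zero_apply] at h
  rcases smul_eq_zero.mp h with h | h
  · exact absurd h hj0
  · exact h

/-- The image of `N → Hom(J, N)` is `J • Hom(J, N)`, for an invertible ideal `J`. -/
theorem range_natMap [Module.Invertible R J] :
    LinearMap.range (natMap J N) = J • (⊤ : Submodule R (J →ₗ[R] N)) := by
  apply le_antisymm
  · rintro _ ⟨n, rfl⟩
    obtain ⟨T, hT⟩ := exists_dual_sum_eq_one R J
    have hn : natMap J N n = ∑ q ∈ T, (q.2 : R) • (q.1.smulRight n : J →ₗ[R] N) := by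
      ext j
      simp only [natMap_apply, LinearMap.sum_apply, LinearMap.smul_apply,
        LinearMap.smulRight_apply]
      have : ∀ q ∈ T, (q.2 : R) • q.1 j • n = q.1 q.2 • ((j : R) • n) := by
        intro q _
        rw [smul_smul, smul_smul]
        congr 1
        have h1 : (q.2 : R) * q.1 j = q.1 ((q.2 : R) • j) := by
          rw [map_smul, smul_eq_mul]
        have h2 : q.1 q.2 * (j : R) = q.1 ((j : R) • q.2) := by
          rw [map_smul, smul_eq_mul, mul_comm]
        rw [h1, h2]
        congr 1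
        ext
        simp [mul_comm]
      rw [Finset.sum_congr rfl this, ← Finset.sum_smul, hT, one_smul]
    rw [hn]
    exact Submodule.sum_mem _ fun q _ => Submodule.smul_mem_smul q.2.2 Submodule.mem_top
  · rw [Submodule.smul_le]
    intro j hj F _
    refine ⟨F ⟨j, hj⟩, ?_⟩
    ext j'
    simp only [natMap_apply, LinearMap.smul_apply]
    rw [← map_smul, ← map_smul]
    congr 1
    ext
    simp [mul_comm]

end Nat

section Finrank

variable {K R : Type u} [Field K] [CommRing R] [Algebra K R] {N : Type u} [AddCommGroup N]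
  [Module R N] [Module K N] [IsScalarTower K R N] [Module.Invertible R N]

/-- For an invertible module `N` and an ideal `𝔞` with `R/𝔞` finite-dimensional over `K`:
`N/𝔞N ≅ R/𝔞` as `K`-vector spaces. -/
theorem nonempty_quotient_smul_top_equiv (𝔞 : Ideal R) [Module.Finite K (R ⧸ 𝔞)] :
    Nonempty ((N ⧸ (𝔞 • (⊤ : Submodule R N))) ≃ₗ[K] (R ⧸ 𝔞)) := by
  haveI : IsArtinianRing (R ⧸ 𝔞) := IsArtinianRing.of_finite K (R ⧸ 𝔞)
  haveI : Module.Free (R ⧸ 𝔞) ((R ⧸ 𝔞) ⊗[R] N) := inferInstance
  obtain ⟨e⟩ := Module.Invertible.free_iff_linearEquiv.mp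
    (inferInstance : Module.Free (R ⧸ 𝔞) ((R ⧸ 𝔞) ⊗[R] N))
  have e₁ : ((R ⧸ 𝔞) ⊗[R] N) ≃ₗ[K] (R ⧸ 𝔞) := e.restrictScalars K
  have e₂ : ((R ⧸ 𝔞) ⊗[R] N) ≃ₗ[K] (N ⧸ (𝔞 • (⊤ : Submodule R N))) :=
    (TensorProduct.quotTensorEquivQuotSMul N 𝔞).restrictScalars K
  exact ⟨e₂.symm.trans e₁⟩

/-- For an invertible module `N` and an ideal `𝔞` with `R/𝔞` finite-dimensional over `K`:
`dim_K N/𝔞N = dim_K R/𝔞`. -/
theorem finrank_quotient_smul_top (𝔞 : Ideal R) [Module.Finite K (R ⧸ 𝔞)] :
    finrank K (N ⧸ (𝔞 • (⊤ : Submodule R N))) = finrank K (R ⧸ 𝔞) := by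
  obtain ⟨e⟩ := nonempty_quotient_smul_top_equiv (K := K) (N := N) 𝔞
  exact e.finrank_eq

end Finrank

end

end Fermat.Agent.S25.H267
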