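import Fermat.Agent.S25.H267.SurjField
import Fermat.Agent.S25.H747.AlgAbelTop
import Fermat.Agent.S25.H267.DivPoints
import Fermat.Agent.S25.H190.D1
import Fermat.Agent.S25.H207.ChartCor
import Fermat.Agent.S25.H310.DegreeInvariance
import Fermat.Agent.S25.H910.DegreeLC
import Fermat.Agent.S25.H265.GDCCurve

/-!
# S25 / AB-ALG, leaf AA6 `abelDatum_surj` (helper267): the curve chart

Over an algebraically closed field `K ⊇ k`, every gluing datum of degree `0` on a curve chart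
is `ℋom(O(-Σ Pᵢ), O(-g ε))` for a `g`-tuple of chart points, `g` the genus.
-/

set_option autoImplicit false
set_option linter.style.haveILetI false
set_option linter.unusedSectionVars false

universe u

open scoped TensorProduct

namespace Fermat.Agent.S25.H267

open Fermat.Agent.S25 Fermat.Agent.S25.H565 Fermat.Agent.S25.H747 Polynomial Module

noncomputable section

section FiniteAeval

variable {k : Type u} [Field k] (K : Type u) [Field K] [Algebra k K]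
  {B : Type u} [CommRing B] [Algebra k B]

theorem aeval_tensor_map (x : B) (p : k[X]) :
    Polynomial.aeval ((1 : K) ⊗ₜ[k] x) (p.map (algebraMap k K)) =
      (1 : K) ⊗ₜ[k] Polynomial.aeval x p := by
  rw [Polynomial.aeval_map_algebraMap]
  exact (Polynomial.aeval_algHom_apply
    (Algebra.TensorProduct.includeRight (R := k) (A := K) (B := B)) x p)

/-- Base change of finiteness of `k[x] → B`. -/
theorem finite_aeval_tensor (x : B) (h : (Polynomial.aeval x : k[X] →ₐ[k] B).Finite) :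
    (Polynomial.aeval ((1 : K) ⊗ₜ[k] x) : K[X] →ₐ[K] K ⊗[k] B).Finite := by
  classical
  letI : Algebra k[X] B := (Polynomial.aeval x : k[X] →ₐ[k] B).toRingHom.toAlgebra
  letI : Algebra K[X] (K ⊗[k] B) :=
    (Polynomial.aeval ((1 : K) ⊗ₜ[k] x) : K[X] →ₐ[K] K ⊗[k] B).toRingHom.toAlgebra
  have h1 : Module.Finite k[X] B := h
  obtain ⟨S, hS⟩ := h1.fg_top
  show Module.Finite K[X] (K ⊗[k] B)
  refine ⟨⟨S.image (fun b => (1 : K) ⊗ₜ[k] b), ?_⟩⟩
  rw [eq_top_iff]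
  rintro z -
  induction z using TensorProduct.induction_on with
  | zero => exact Submodule.zero_mem _
  | add z w hz hw => exact Submodule.add_mem _ hz hw
  | tmul a b =>
    have hb : b ∈ Submodule.span k[X] (S : Set B) := by rw [hS]; trivial
    obtain ⟨p, -, hp⟩ := Submodule.mem_span_finset.mp hb
    have hab : a ⊗ₜ[k] b = ∑ s ∈ S,
        (Polynomial.C a * (p s).map (algebraMap k K)) • ((1 : K) ⊗ₜ[k] s) := by
      rw [← hp, TensorProduct.tmul_sum]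
      refine Finset.sum_congr rfl fun s _ => ?_
      have h2 : (p s) • s = Polynomial.aeval x (p s) * s := rfl
      have h3 : (Polynomial.C a * (p s).map (algebraMap k K)) • ((1 : K) ⊗ₜ[k] s) =
          Polynomial.aeval ((1 : K) ⊗ₜ[k] x) (Polynomial.C a * (p s).map (algebraMap k K)) *
            ((1 : K) ⊗ₜ[k] s) := rfl
      rw [h2, h3, map_mul, aeval_tensor_map, Polynomial.aeval_C,
        Algebra.TensorProduct.algebraMap_apply, Algebra.TensorProduct.tmul_mul_tmul,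
        Algebra.TensorProduct.tmul_mul_tmul]
      simp
    rw [hab]
    refine Submodule.sum_mem _ fun s hs => Submodule.smul_mem _ _ (Submodule.subset_span ?_)
    rw [Finset.coe_image]
    exact ⟨s, hs, rfl⟩

end FiniteAeval

section OfIdealsCongr

variable {A R₀ R₁ R₀₁ : Type u} [CommRing A] [CommRing R₀] [CommRing R₁]
    [CommRing R₀₁] [Algebra A R₀] [Algebra A R₁] [Algebra A R₀₁] [Algebra R₀ R₀₁]
    [Algebra R₁ R₀₁] [IsScalarTower A R₀ R₀₁] [IsScalarTower A R₁ R₀₁]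

theorem ofIdeals_congr {I₀ I₀' : Ideal R₀} {I₁ I₁' : Ideal R₁} {I₀₁ I₀₁' : Ideal R₀₁}
    (hI : IsCartierTriple I₀ I₁ I₀₁) (hI' : IsCartierTriple I₀' I₁' I₀₁')
    (h₀ : I₀ = I₀') (h₁ : I₁ = I₁') (h₀₁ : I₀₁ = I₀₁') :
    ofIdeals A hI = ofIdeals A hI' := by
  subst h₀ h₁ h₀₁
  rfl

end OfIdealsCongr

section Curve

variable {k : Type u} [Field k] [IsAlgClosed k]
  {B₀ B₁ B₀₁ : Type u} [CommRing B₀] [CommRing B₁] [CommRing B₀₁]
  [Algebra k B₀] [Algebra k B₁] [Algebra k B₀₁] [Algebra B₀ B₀₁] [Algebra B₁ B₀₁]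
  [IsScalarTower k B₀ B₀₁] [IsScalarTower k B₁ B₀₁]
  {x : B₀} {y : B₁} {e : B₁ →ₐ[k] k}

/-- Čech cohomology of a gluing datum on a curve chart over a field is finite-dimensional. -/
theorem finCoh_curve (hC : IsCurveChart k B₀ B₁ B₀₁ x y e) {K : Type u} [Field K]
    [Algebra k K] (G : CurveGD k B₀ B₁ B₀₁ K) : FinCoh G.cech :=
  ⟨H190.finite_H0 hC G, H190.finite_H1 hC G⟩

/-- `h⁰(O) ≥ 1` over `k`. -/
theorem finrank_H0_unit_pos (hC : IsCurveChart k B₀ B₁ B₀₁ x y e) :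
    0 < finrank k (GlueDatum.unit k (k ⊗[k] B₀) (k ⊗[k] B₁) (k ⊗[k] B₀₁)).H0 := by
  haveI : Module.Finite k (GlueDatum.unit k (k ⊗[k] B₀) (k ⊗[k] B₁) (k ⊗[k] B₀₁)).H0 :=
    H190.finite_H0 hC _
  haveI : IsDomain (k ⊗[k] B₀) := (H207.isDedekindDomain_tensor_chart₀ hC k).toIsDomain
  set U := GlueDatum.unit k (k ⊗[k] B₀) (k ⊗[k] B₁) (k ⊗[k] B₀₁) with hU
  let p : U.N₀ × U.N₁ := ((1 : k ⊗[k] B₀), (1 : k ⊗[k] B₁))
  have hmem : p ∈ U.H0 := (mem_H0_iff U p).2 (by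
    show algebraMap (k ⊗[k] B₀) (k ⊗[k] B₀₁) 1 = algebraMap (k ⊗[k] B₁) (k ⊗[k] B₀₁) 1
    rw [map_one, map_one])
  have hne : (⟨p, hmem⟩ : U.H0) ≠ 0 := by
    intro h
    have h1 : p.1 = 0 := congrArg (fun q : U.H0 => q.1.1) h
    exact one_ne_zero (α := k ⊗[k] B₀) h1
  exact Module.finrank_pos_iff_exists_ne_zero.mpr ⟨_, hne⟩

/-- Riemann: `χ(O_K) + g ≥ 1`. -/
theorem one_le_euler_unit_add_genus (hC : IsCurveChart k B₀ B₁ B₀₁ x y e) (K : Type u)
    [Field K] [Algebra k K] :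
    1 ≤ (GlueDatum.unit K (K ⊗[k] B₀) (K ⊗[k] B₁) (K ⊗[k] B₀₁)).euler +
      (genus k B₀ B₁ B₀₁ : ℤ) := by
  have h1 := H310.euler_eq_of_isBC (Algebra.ofId k K)
    (H910.isBC_unit (B₀ := B₀) (B₁ := B₁) (B₀₁ := B₀₁) (Algebra.ofId k K))
  rw [h1]
  have h2 := finrank_H0_unit_pos hC
  rw [GlueDatum.euler, genus]
  omega

section Eps

variable (hC : IsCurveChart k B₀ B₁ B₀₁ x y e) (K : Type u) [Field K] [Algebra k K]

include hC in
theorem graphIdeal_eps_map :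
    (graphIdeal ((Algebra.ofId k K).comp e)).map
      (algebraMap (K ⊗[k] B₁) (K ⊗[k] B₀₁)) = ⊤ := by
  haveI := hC.away₁
  haveI : IsLocalization.Away ((1 : K) ⊗ₜ[k] y) (K ⊗[k] B₀₁) :=
    isLocalization_away_tensor (k := k) K B₁ B₀₁ y
  have hmem : (1 : K) ⊗ₜ[k] y ∈ graphIdeal ((Algebra.ofId k K).comp e) := by
    rw [graphIdeal, RingHom.mem_ker, evalHom_tmul]
    simp [hC.e_y]
  exact Ideal.eq_top_of_isUnit_mem _ (Ideal.mem_map_of_mem _ hmem)
    (IsLocalization.Away.algebraMap_isUnit ((1 : K) ⊗ₜ[k] y))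

include hC in
theorem ptI₀_eps : ptI₀ B₀₁ (epsPt B₀ e K) = ⊤ := by
  show ((graphIdeal ((Algebra.ofId k K).comp e)).map
    (algebraMap (K ⊗[k] B₁) (K ⊗[k] B₀₁))).comap (algebraMap (K ⊗[k] B₀) (K ⊗[k] B₀₁)) = ⊤
  rw [graphIdeal_eps_map hC K, Ideal.comap_top]

include hC in
theorem ptI₀₁_eps : ptI₀₁ B₀₁ (epsPt B₀ e K) = ⊤ :=
  graphIdeal_eps_map hC K

theorem ptI₁_eps : ptI₁ B₀₁ (epsPt B₀ e K) = graphIdeal ((Algebra.ofId k K).comp e) := rfl

include hC in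
theorem tupI₀_eps (g : ℕ) : tupI₀ B₀₁ (fun _ : Fin g => epsPt B₀ e K) = ⊤ := by
  simp only [tupI₀, ptI₀_eps hC K, Finset.prod_const]
  exact Ideal.top_pow _ _

include hC in
theorem tupI₀₁_eps (g : ℕ) : tupI₀₁ B₀₁ (fun _ : Fin g => epsPt B₀ e K) = ⊤ := by
  simp only [tupI₀₁, ptI₀₁_eps hC K, Finset.prod_const]
  exact Ideal.top_pow _ _

theorem tupI₁_eps (g : ℕ) : tupI₁ B₀₁ (fun _ : Fin g => epsPt B₀ e K) =
    (graphIdeal ((Algebra.ofId k K).comp e) : Ideal (K ⊗[k] B₁)) ^ g := by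
  simp only [tupI₁, ptI₁_eps K, Finset.prod_const, Finset.card_univ, Fintype.card_fin]

theorem graphIdeal_isMaximal {B : Type u} [CommRing B] [Algebra k B] (φ : B →ₐ[k] K) :
    (graphIdeal φ).IsMaximal :=
  RingHom.ker_isMaximal_of_surjective _ (evalHom_surjective φ)

include hC in
theorem graphIdeal_eps_ne_bot :
    (graphIdeal ((Algebra.ofId k K).comp e) : Ideal (K ⊗[k] B₁)) ≠ ⊥ := by
  intro h
  have hmax := graphIdeal_isMaximal K ((Algebra.ofId k K).comp e)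
  rw [h] at hmax
  haveI : IsDomain (K ⊗[k] B₁) := (H207.isDedekindDomain_tensor_chart₁ hC K).toIsDomain
  exact H207.not_isField_tensor_chart₁ hC K (Ring.isField_iff_maximal_bot.mpr hmax)

variable [IsAlgClosed K]

include hC in
/-- The divisor `g · ε` has degree `g`. -/
theorem delta_eps (g : ℕ) :
    delta K (tupI₀ B₀₁ (fun _ : Fin g => epsPt B₀ e K))
      (tupI₁ B₀₁ (fun _ : Fin g => epsPt B₀ e K))
      (tupI₀₁ B₀₁ (fun _ : Fin g => epsPt B₀ e K)) = g := by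
  haveI := H207.isDedekindDomain_tensor_chart₁ hC K
  haveI := H207.finiteType_chart₁ hC
  haveI : Algebra.FiniteType K (K ⊗[k] B₁) := inferInstance
  haveI := graphIdeal_isMaximal K ((Algebra.ofId k K).comp e)
  rw [delta, PTS.finrank_quotient_congr (K := K) (tupI₀_eps hC K g),
    PTS.finrank_quotient_congr (K := K) (tupI₀₁_eps hC K g),
    PTS.finrank_quotient_congr (K := K) (tupI₁_eps K g),
    PTS.finrank_quotient_top, PTS.finrank_quotient_top,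
    PTS.finrank_quotient_pow _ (graphIdeal_eps_ne_bot hC K) g]
  simp

end Eps

section PTS

variable (K : Type u) [Field K] [Algebra k K]

/-- A `K`-point of `Spec (K ⊗ B)` as a `K`-valued point of `Spec B`. -/
def toPt {B : Type u} [CommRing B] [Algebra k B] (Φ : K ⊗[k] B →ₐ[K] K) : B →ₐ[k] K :=
  (Φ.restrictScalars k).comp Algebra.TensorProduct.includeRight

theorem evalHom_toPt {B : Type u} [CommRing B] [Algebra k B] (Φ : K ⊗[k] B →ₐ[K] K) :
    evalHom (toPt K Φ) = Φ := by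
  apply Algebra.TensorProduct.ext'
  intro a b
  rw [evalHom_tmul]
  show a * Φ ((1 : K) ⊗ₜ[k] b) = Φ (a ⊗ₜ[k] b)
  rw [← smul_eq_mul, ← map_smul, TensorProduct.smul_tmul', smul_eq_mul, mul_one]

/-- Chart points in the sense of `PTS.DivPoints` as chart points of the curve chart. -/
def toChartPt (Q : (K ⊗[k] B₀ →ₐ[K] K) ⊕ (K ⊗[k] B₁ →ₐ[K] K)) : H746.ChartPt k B₀ B₁ K :=
  Sum.map (toPt K) (toPt K) Q

theorem ptI₀_toChartPt (Q : (K ⊗[k] B₀ →ₐ[K] K) ⊕ (K ⊗[k] B₁ →ₐ[K] K)) :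
    ptI₀ B₀₁ (toChartPt K Q) = PTS.ptIdeal₀ (K ⊗[k] B₀₁) Q := by
  rcases Q with Φ | Φ
  · show graphIdeal (toPt K Φ) = RingHom.ker Φ
    rw [graphIdeal, evalHom_toPt]
  · show ((graphIdeal (toPt K Φ)).map _).comap _ = ((RingHom.ker Φ).map _).comap _
    rw [graphIdeal, evalHom_toPt]

theorem ptI₁_toChartPt (Q : (K ⊗[k] B₀ →ₐ[K] K) ⊕ (K ⊗[k] B₁ →ₐ[K] K)) :
    ptI₁ B₀₁ (toChartPt K Q) = PTS.ptIdeal₁ (K ⊗[k] B₀₁) Q := by
  rcases Q with Φ | Φ
  · show ((graphIdeal (toPt K Φ)).map _).comap _ = ((RingHom.ker Φ).map _).comap _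
    rw [graphIdeal, evalHom_toPt]
  · show graphIdeal (toPt K Φ) = RingHom.ker Φ
    rw [graphIdeal, evalHom_toPt]

end PTS

/-- **AA6.** Over an algebraically closed field every datum of degree `0` is in the Abel
family. -/
theorem abelDatum_surj (hC : IsCurveChart k B₀ B₁ B₀₁ x y e)
    (K : Type u) [Field K] [IsAlgClosed K] [Algebra k K] (G : CurveGD k B₀ B₁ B₀₁ K)
    (hG : G.Deg0) :
    ∃ P : Fin (genus k B₀ B₁ B₀₁) → H746.ChartPt k B₀ B₁ K,
      G.IsIso (abelDatum (B₀₁ := B₀₁) e (genus k B₀ B₁ B₀₁) K P) := by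
  -- the cospan over `K`
  haveI := hC.away₀
  haveI := hC.away₁
  haveI dd₀ := H207.isDedekindDomain_tensor_chart₀ hC K
  haveI dd₁ := H207.isDedekindDomain_tensor_chart₁ hC K
  haveI : IsDomain (K ⊗[k] B₀₁) := H207.isDomain_tensor_chart₀₁ hC K
  haveI := H207.finiteType_chart₀ hC
  haveI := H207.finiteType_chart₁ hC
  haveI : Algebra.FiniteType K (K ⊗[k] B₀) := inferInstance
  haveI : Algebra.FiniteType K (K ⊗[k] B₁) := inferInstance
  haveI l₀ : IsLocalization.Away ((1 : K) ⊗ₜ[k] x) (K ⊗[k] B₀₁) :=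
    isLocalization_away_tensor (k := k) K B₀ B₀₁ x
  haveI l₁ : IsLocalization.Away ((1 : K) ⊗ₜ[k] y) (K ⊗[k] B₀₁) :=
    isLocalization_away_tensor (k := k) K B₁ B₀₁ y
  have hx := finite_aeval_tensor K x hC.finite₀
  have hy := finite_aeval_tensor K y hC.finite₁
  have hx0 : (1 : K) ⊗ₜ[k] x ≠ 0 := by
    intro h0
    have hu : IsUnit (algebraMap (K ⊗[k] B₀) (K ⊗[k] B₀₁) ((1 : K) ⊗ₜ[k] x)) :=
      IsLocalization.Away.algebraMap_isUnit _
    rw [h0, map_zero] at hu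
    exact not_isUnit_zero hu
  -- numerical input
  have hO := finCoh_curve hC (GlueDatum.unit K (K ⊗[k] B₀) (K ⊗[k] B₁) (K ⊗[k] B₀₁))
  have hGf := finCoh_curve hC G
  have hdeg : G.degree = 0 := hG K (AlgHom.id k K) G (H265.curveGD_isBC_id G)
  have hJ := tupCartier hC K (fun _ : Fin (genus k B₀ B₁ B₀₁) => epsPt B₀ e K)
  have hJ₀ : tupI₀ B₀₁ (fun _ : Fin (genus k B₀ B₁ B₀₁) => epsPt B₀ e K) ≠ ⊥ := by
    rw [tupI₀_eps hC K]; exact top_ne_bot
  have hJ₁ : tupI₁ B₀₁ (fun _ : Fin (genus k B₀ B₁ B₀₁) => epsPt B₀ e K) ≠ ⊥ := by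
    rw [tupI₁_eps K]
    exact pow_ne_zero _ (graphIdeal_eps_ne_bot hC K)
  have hδ := delta_eps hC K (genus k B₀ B₁ B₀₁)
  have hR : 1 ≤ G.euler + delta K
      (tupI₀ B₀₁ (fun _ : Fin (genus k B₀ B₁ B₀₁) => epsPt B₀ e K))
      (tupI₁ B₀₁ (fun _ : Fin (genus k B₀ B₁ B₀₁) => epsPt B₀ e K))
      (tupI₀₁ B₀₁ (fun _ : Fin (genus k B₀ B₁ B₀₁) => epsPt B₀ e K)) := by
    have h1 := one_le_euler_unit_add_genus hC K
    rw [GlueDatum.degree] at hdeg
    rw [hδ]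
    omega
  -- the divisor
  obtain ⟨I₀, I₁, I₀₁, hI, hI₀, hI₁, hiso, hdI⟩ :=
    exists_isIso_homDatum_ofIdeals ((1 : K) ⊗ₜ[k] x) ((1 : K) ⊗ₜ[k] y) hx hy hO G hGf hJ
      hJ₀ hJ₁ hR
  -- the points
  obtain ⟨n, Q, e₀, e₁, hn⟩ := PTS.exists_points_of_compatible (K := K) (K ⊗[k] B₀₁)
    ((1 : K) ⊗ₜ[k] x) ((1 : K) ⊗ₜ[k] y) hx0 I₀ I₁ hI₀ hI₁ (hI.map₀.trans hI.map₁.symm)
  have hn' : n = genus k B₀ B₁ B₀₁ := by
    have h2 : delta K I₀ I₁ I₀₁ = (finrank K (K ⊗[k] B₀ ⧸ I₀) : ℤ) +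
        finrank K (K ⊗[k] B₁ ⧸ I₁) -
        finrank K (K ⊗[k] B₀₁ ⧸ I₀.map (algebraMap (K ⊗[k] B₀) (K ⊗[k] B₀₁))) := by
      rw [delta, PTS.finrank_quotient_congr (K := K) hI.map₀]
    rw [← h2, hdI, hdeg, hδ, zero_add] at hn
    exact_mod_cast hn
  subst hn'
  refine ⟨fun j => toChartPt K (Q j), ?_⟩
  have hP := tupCartier hC K (fun j => toChartPt (k := k) (B₀ := B₀) (B₁ := B₁) K (Q j))
  have h₀ : I₀ = tupI₀ B₀₁ (fun j => toChartPt (k := k) (B₀ := B₀) (B₁ := B₁) K (Q j)) := by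
    rw [e₀, tupI₀]
    exact Finset.prod_congr rfl fun j _ => (ptI₀_toChartPt K (Q j)).symm
  have h₁ : I₁ = tupI₁ B₀₁ (fun j => toChartPt (k := k) (B₀ := B₀) (B₁ := B₁) K (Q j)) := by
    rw [e₁, tupI₁]
    exact Finset.prod_congr rfl fun j _ => (ptI₁_toChartPt K (Q j)).symm
  have h₀₁ : I₀₁ = tupI₀₁ B₀₁ (fun j => toChartPt (k := k) (B₀ := B₀) (B₁ := B₁) K (Q j)) := by
    rw [← hI.map₀, h₀]
    exact hP.map₀
  rw [abelDatum_eq e _ K _ hP hJ, ← ofIdeals_congr hI hP h₀ h₁ h₀₁]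
  exact hiso

end Curve

end

end Fermat.Agent.S25.H267
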