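import Fermat.Agent.S25.H267.SurjGlue

/-!
# S25 / AB-ALG, leaf AA6 (helper267): every gluing datum is `ℋom(O(-D), 𝒥)`, over a field

Cospan `R₀ → R₀₁ ← R₁` of `K`-algebras, `K` a field, `R₀`, `R₁` domains finite over `K[x]`,
`K[y]`, `R₀₁ = R₀[1/x] = R₁[1/y]` nontrivial.

* `delta I₀ I₁ I₀₁ = dim R₀/I₀ + dim R₁/I₁ - dim R₀₁/I₀₁` (the degree of the divisor).
* `euler_ofIdeals`: `χ(O) = χ(O(-D)) + deg D`.
* `euler_homDatum_ofIdeals`: `χ(ℋom(O(-D), G)) = χ(G) + deg D`.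
* `exists_isIso_homDatum_ofIdeals` (**main**): if `χ(G) + deg 𝒥 ≥ 1` then
  `G ≅ ℋom(O(-D), 𝒥)` for a Cartier triple `D` of nonzero ideals with
  `deg D = deg G + deg 𝒥`.
-/

set_option autoImplicit false
set_option linter.style.haveILetI false
set_option linter.unusedSectionVars false

universe u

namespace Fermat.Agent.S25.H267

open Fermat.Agent.S25 Fermat.Agent.S25.H565 Fermat.Agent.S25.H747 Polynomial Module

noncomputable section

section Bridge

variable {K R : Type u} [Field K] [CommRing R] [Algebra K R]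
  {M N : Type u} [AddCommGroup M] [AddCommGroup N] [Module R M] [Module R N]
  [Module K M] [Module K N] [IsScalarTower K R M] [IsScalarTower K R N]

/-- The cokernel of the `K`-linear map underlying `f` is the cokernel of `f`. -/
def cokerEquiv (f : M →ₗ[R] N) (P : Submodule R N) (h : LinearMap.range f = P) :
    (N ⧸ LinearMap.range (f.restrictScalars K)) ≃ₗ[K] (N ⧸ P) :=
  (Submodule.Quotient.restrictScalarsEquiv K (LinearMap.range f)).trans
    ((Submodule.quotEquivOfEq _ _ h).restrictScalars K)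

variable [Module.Invertible R N]

/-- If the image of `f : M → N` is `I N`, `N` invertible, `R/I` finite-dimensional, then
the cokernel of `f` has dimension `dim R/I`. -/
theorem finrank_coker_of_range (f : M →ₗ[R] N) (I : Ideal R)
    (h : LinearMap.range f = I • (⊤ : Submodule R N)) [Module.Finite K (R ⧸ I)] :
    FiniteDimensional K (N ⧸ LinearMap.range (f.restrictScalars K)) ∧
      finrank K (N ⧸ LinearMap.range (f.restrictScalars K)) = finrank K (R ⧸ I) := by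
  have e := cokerEquiv (K := K) f _ h
  obtain ⟨e'⟩ := nonempty_quotient_smul_top_equiv (K := K) (N := N) I
  exact ⟨Module.Finite.equiv (e.trans e').symm, (e.trans e').finrank_eq⟩

/-- Nonzero ideals of a domain finite over `K[x]` have finite-dimensional quotients. -/
theorem finite_quotient_of_ne_bot_of_finite [IsDomain R] (x : R)
    (hfin : (Polynomial.aeval x : K[X] →ₐ[K] R).Finite) (I : Ideal R) (hI : I ≠ ⊥) :
    Module.Finite K (R ⧸ I) := by
  obtain ⟨r, hr, hr0⟩ := Submodule.exists_mem_ne_zero_of_ne_bot hI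
  obtain ⟨c, hc, b, hb⟩ := exists_polynomial_dvd (K := K) x hfin r hr0
  have h1 : FiniteDimensional K (R ⧸ (I.restrictScalars K)) :=
    finiteDimensional_quotient_of_aeval_smul_mem x hfin (N := R) (I.restrictScalars K) c hc
      (fun n => by
        show Polynomial.aeval x c • n ∈ I
        rw [hb, smul_eq_mul, mul_assoc]
        exact I.mul_mem_right _ hr)
  exact Module.Finite.equiv (Submodule.Quotient.restrictScalarsEquiv K I)

end Bridge

section Field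

variable {K R₀ R₁ R₀₁ : Type u} [Field K] [CommRing R₀] [CommRing R₁]
    [CommRing R₀₁] [Algebra K R₀] [Algebra K R₁] [Algebra K R₀₁] [Algebra R₀ R₀₁]
    [Algebra R₁ R₀₁] [IsScalarTower K R₀ R₀₁] [IsScalarTower K R₁ R₀₁]

variable (K) in
/-- The degree `dim R₀/I₀ + dim R₁/I₁ - dim R₀₁/I₀₁` of a triple of ideals. -/
def delta (I₀ : Ideal R₀) (I₁ : Ideal R₁) (I₀₁ : Ideal R₀₁) : ℤ :=
  (finrank K (R₀ ⧸ I₀) : ℤ) + finrank K (R₁ ⧸ I₁) - finrank K (R₀₁ ⧸ I₀₁)

/-- The inclusion `O(-D) → O`. -/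
def inclHom {I₀ : Ideal R₀} {I₁ : Ideal R₁} {I₀₁ : Ideal R₀₁}
    (hI : IsCartierTriple I₀ I₁ I₀₁) :
    GlueHom (ofIdeals K hI) (GlueDatum.unit K R₀ R₁ R₀₁) where
  f₀ := I₀.subtype
  f₁ := I₁.subtype
  f₀₁ := I₀₁.subtype
  comm₀ := fun _ => rfl
  comm₁ := fun _ => rfl

/-- Euler characteristic of a morphism whose images are `I • ⊤`. -/
theorem euler_eq_of_range (x : R₀) [IsLocalization.Away x R₀₁]
    {G G' : GlueDatum K R₀ R₁ R₀₁} (φ : GlueHom G G')
    (h₀ : Function.Injective φ.f₀) (h₁ : Function.Injective φ.f₁)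
    (I₀ : Ideal R₀) (I₁ : Ideal R₁) (I₀₁ : Ideal R₀₁)
    (e₀ : LinearMap.range φ.f₀ = I₀ • (⊤ : Submodule R₀ G'.N₀))
    (e₁ : LinearMap.range φ.f₁ = I₁ • (⊤ : Submodule R₁ G'.N₁))
    (e₀₁ : LinearMap.range φ.f₀₁ = I₀₁ • (⊤ : Submodule R₀₁ G'.N₀₁))
    [Module.Finite K (R₀ ⧸ I₀)] [Module.Finite K (R₁ ⧸ I₁)] [Module.Finite K (R₀₁ ⧸ I₀₁)] :
    (FinCoh G.cech → FinCoh G'.cech ∧ G'.euler = G.euler + delta K I₀ I₁ I₀₁) ∧
      (FinCoh G'.cech → FinCoh G.cech) := by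
  haveI := G'.invertible₀
  haveI := G'.invertible₁
  haveI := invertible₀₁ G'
  obtain ⟨hf₀, hr₀⟩ := finrank_coker_of_range (K := K) φ.f₀ I₀ e₀
  obtain ⟨hf₁, hr₁⟩ := finrank_coker_of_range (K := K) φ.f₁ I₁ e₁
  obtain ⟨hf₀₁, hr₀₁⟩ := finrank_coker_of_range (K := K) φ.f₀₁ I₀₁ e₀₁
  haveI : FiniteDimensional K φ.coker₀ := hf₀
  haveI : FiniteDimensional K φ.coker₁ := hf₁
  have hr₀' : finrank K φ.coker₀ = finrank K (R₀ ⧸ I₀) := hr₀
  have hr₁' : finrank K φ.coker₁ = finrank K (R₁ ⧸ I₁) := hr₁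
  have hr₀₁' : finrank K φ.coker₀₁ = finrank K (R₀₁ ⧸ I₀₁) := hr₀₁
  refine ⟨fun hG => ?_, fun hG' => φ.finCoh_of_finCoh x h₀ h₁ hG'⟩
  obtain ⟨hfc, heu⟩ := φ.euler_eq x h₀ h₁ hG
  refine ⟨hfc, ?_⟩
  rw [heu, delta, hr₀', hr₁', hr₀₁']
  ring

variable [IsDomain R₀] [IsDomain R₁] [Nontrivial R₀₁]
  (x : R₀) (y : R₁) [IsLocalization.Away x R₀₁] [IsLocalization.Away y R₀₁]

include x in
theorem isDomain₀₁ : IsDomain R₀₁ := by
  have hx : x ≠ 0 := by
    intro h0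
    have hu : IsUnit (algebraMap R₀ R₀₁ x) := IsLocalization.Away.algebraMap_isUnit x
    rw [h0, map_zero] at hu
    exact not_isUnit_zero hu
  exact IsLocalization.isDomain_of_le_nonZeroDivisors (S := R₀₁) (R := R₀)
    (M := Submonoid.powers x)
    (Submonoid.powers_le.mpr (mem_nonZeroDivisors_of_ne_zero hx))

variable (hx : (Polynomial.aeval x : K[X] →ₐ[K] R₀).Finite)
  (hy : (Polynomial.aeval y : K[X] →ₐ[K] R₁).Finite)

section Triple

variable {I₀ : Ideal R₀} {I₁ : Ideal R₁} {I₀₁ : Ideal R₀₁} (hI : IsCartierTriple I₀ I₁ I₀₁)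

include x hx hI in
/-- `R₀₁/I₀₁` is finite-dimensional for a Cartier triple with `I₀ ≠ 0`. -/
theorem finite_quotient₀₁ (h₀ : I₀ ≠ ⊥) : Module.Finite K (R₀₁ ⧸ I₀₁) := by
  haveI : Module.Finite K (R₀ ⧸ I₀) := finite_quotient_of_ne_bot_of_finite x hx I₀ h₀
  have e₀ := cokerEquiv (K := K) I₀.subtype I₀ (Submodule.range_subtype I₀)
  haveI : FiniteDimensional K (inclHom (K := K) hI).coker₀ :=
    (Module.Finite.equiv e₀.symm :
      Module.Finite K (R₀ ⧸ LinearMap.range (I₀.subtype.restrictScalars K)))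
  have h : Module.Finite K (R₀₁ ⧸ LinearMap.range (I₀₁.subtype.restrictScalars K)) :=
    ((inclHom (K := K) hI).finrank_coker₀₁_le₀ x).1
  have e₀₁ := cokerEquiv (K := K) I₀₁.subtype I₀₁ (Submodule.range_subtype I₀₁)
  exact Module.Finite.equiv e₀₁

include x y hx hy hI in
/-- `χ(O) = χ(O(-D)) + deg D`. -/
theorem euler_ofIdeals (hO : FinCoh (GlueDatum.unit K R₀ R₁ R₀₁).cech)
    (h₀ : I₀ ≠ ⊥) (h₁ : I₁ ≠ ⊥) :
    FinCoh (ofIdeals K hI).cech ∧
      (GlueDatum.unit K R₀ R₁ R₀₁).euler = (ofIdeals K hI).euler + delta K I₀ I₁ I₀₁ := by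
  haveI : Module.Finite K (R₀ ⧸ I₀) := finite_quotient_of_ne_bot_of_finite x hx I₀ h₀
  haveI : Module.Finite K (R₁ ⧸ I₁) := finite_quotient_of_ne_bot_of_finite y hy I₁ h₁
  haveI : Module.Finite K (R₀₁ ⧸ I₀₁) := finite_quotient₀₁ x hx hI h₀
  have key := euler_eq_of_range x (inclHom (K := K) hI)
    (Subtype.val_injective) (Subtype.val_injective) I₀ I₁ I₀₁
    ((Submodule.range_subtype I₀).trans (by
      show I₀ = I₀ • (⊤ : Ideal R₀); rw [smul_eq_mul, Ideal.mul_top]))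
    ((Submodule.range_subtype I₁).trans (by
      show I₁ = I₁ • (⊤ : Ideal R₁); rw [smul_eq_mul, Ideal.mul_top]))
    ((Submodule.range_subtype I₀₁).trans (by
      show I₀₁ = I₀₁ • (⊤ : Ideal R₀₁); rw [smul_eq_mul, Ideal.mul_top]))
  have hfc := key.2 hO
  exact ⟨hfc, (key.1 hfc).2⟩

include x y hx hy hI in
/-- `χ(ℋom(O(-D), G)) = χ(G) + deg D`. -/
theorem euler_homDatum_ofIdeals (G : GlueDatum K R₀ R₁ R₀₁) (hG : FinCoh G.cech)
    (h₀ : I₀ ≠ ⊥) (h₁ : I₁ ≠ ⊥) :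
    FinCoh (homDatum (ofIdeals K hI) G).cech ∧
      (homDatum (ofIdeals K hI) G).euler = G.euler + delta K I₀ I₁ I₀₁ := by
  haveI : Module.Finite K (R₀ ⧸ I₀) := finite_quotient_of_ne_bot_of_finite x hx I₀ h₀
  haveI : Module.Finite K (R₁ ⧸ I₁) := finite_quotient_of_ne_bot_of_finite y hy I₁ h₁
  haveI : Module.Finite K (R₀₁ ⧸ I₀₁) := finite_quotient₀₁ x hx hI h₀
  haveI := G.invertible₀
  haveI := G.invertible₁
  haveI := hI.inv₀
  haveI := hI.inv₁
  haveI : Module.Invertible R₀₁ I₀₁ := invertible₀₁ (ofIdeals K hI)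
  have key := euler_eq_of_range x (natHom hI G)
    (natMap_injective h₀) (natMap_injective h₁) I₀ I₁ I₀₁
    range_natMap range_natMap range_natMap
  exact key.1 hG

end Triple

omit [Nontrivial R₀₁] in
/-- A nonzero linear map from an ideal of a domain to a torsion-free module is injective. -/
theorem injective_of_ne_zero_ideal {R : Type*} [CommRing R] [IsDomain R] (J : Ideal R)
    {N : Type*} [AddCommGroup N] [Module R N] [Module.IsTorsionFree R N] (f : J →ₗ[R] N)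
    (hf : f ≠ 0) : Function.Injective f := by
  rw [← LinearMap.ker_eq_bot, LinearMap.ker_eq_bot']
  intro j hj
  by_contra hj0
  apply hf
  ext j'
  have h1 : (j : R) • f j' = 0 := by
    have : (j : R) • j' = (j' : R) • j := by
      ext; simp [mul_comm]
    rw [← map_smul, this, map_smul, hj, smul_zero]
  rcases smul_eq_zero.mp h1 with h | h
  · exact absurd (Subtype.ext h) hj0
  · simpa using h

omit [Nontrivial R₀₁] in
theorem nontrivial_of_invertible {R : Type*} [CommRing R] [Nontrivial R] {N : Type*}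
    [AddCommGroup N] [Module R N] [Module.Invertible R N] : Nontrivial N := by
  by_contra h
  rw [not_nontrivial_iff_subsingleton] at h
  exact one_ne_zero (eq_of_forall_smul_eq (R := R) (J := N)
    fun j => Subsingleton.elim _ _)

include x y hx hy in
/-- **Main theorem (field level).**  If `χ(G) + deg 𝒥 ≥ 1`, then `G ≅ ℋom(O(-D), 𝒥)` for a
Cartier triple `D = (I₀, I₁, I₀₁)` of nonzero ideals, of degree `deg G + deg 𝒥`. -/
theorem exists_isIso_homDatum_ofIdeals (hO : FinCoh (GlueDatum.unit K R₀ R₁ R₀₁).cech)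
    (G : GlueDatum K R₀ R₁ R₀₁) (hG : FinCoh G.cech)
    {J₀ : Ideal R₀} {J₁ : Ideal R₁} {J₀₁ : Ideal R₀₁} (hJ : IsCartierTriple J₀ J₁ J₀₁)
    (hJ₀ : J₀ ≠ ⊥) (hJ₁ : J₁ ≠ ⊥) (hR : 1 ≤ G.euler + delta K J₀ J₁ J₀₁) :
    ∃ (I₀ : Ideal R₀) (I₁ : Ideal R₁) (I₀₁ : Ideal R₀₁) (hI : IsCartierTriple I₀ I₁ I₀₁),
      I₀ ≠ ⊥ ∧ I₁ ≠ ⊥ ∧ G.IsIso (homDatum (ofIdeals K hI) (ofIdeals K hJ)) ∧
        delta K I₀ I₁ I₀₁ = G.degree + delta K J₀ J₁ J₀₁ := by
  haveI := G.invertible₀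
  haveI := G.invertible₁
  haveI := invertible₀₁ G
  haveI := hJ.inv₀
  haveI := hJ.inv₁
  haveI : Module.Invertible R₀₁ J₀₁ := invertible₀₁ (ofIdeals K hJ)
  haveI : Module.Invertible R₀ (ofIdeals K hJ).N₀ := (ofIdeals K hJ).invertible₀
  haveI : Module.Invertible R₁ (ofIdeals K hJ).N₁ := (ofIdeals K hJ).invertible₁
  haveI : Module.Invertible R₀₁ (ofIdeals K hJ).N₀₁ := invertible₀₁ (ofIdeals K hJ)
  haveI : IsDomain R₀₁ := isDomain₀₁ x
  -- Riemann: a nonzero section of `ℋom(𝒥, G)`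
  obtain ⟨hHfc, hHeu⟩ := euler_homDatum_ofIdeals x y hx hy hJ G hG hJ₀ hJ₁
  have hpos : 0 < finrank K (homDatum (ofIdeals K hJ) G).H0 := by
    have h1 := chi_le_hZero (homDatum (ofIdeals K hJ) G).cech
    have h2 : (homDatum (ofIdeals K hJ) G).euler = chi (homDatum (ofIdeals K hJ) G).cech := rfl
    have h3 : hZero (homDatum (ofIdeals K hJ) G).cech =
        finrank K (homDatum (ofIdeals K hJ) G).H0 := rfl
    rw [← h3]
    have : (1 : ℤ) ≤ hZero (homDatum (ofIdeals K hJ) G).cech := by omega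
    exact_mod_cast this
  haveI := Module.nontrivial_of_finrank_pos hpos
  obtain ⟨p, hp⟩ := exists_ne (0 : (homDatum (ofIdeals K hJ) G).H0)
  have hmem := (mem_H0_iff (homDatum (ofIdeals K hJ) G) p.1).1 p.2
  have hp' : p.1.1 ≠ 0 ∨ p.1.2 ≠ 0 := by
    by_contra hcon
    push Not at hcon
    exact hp (Subtype.ext (Prod.ext hcon.1 hcon.2))
  obtain ⟨hs₀, hs₁⟩ := section_ne_zero x y (homDatum (ofIdeals K hJ) G) hmem hp'
  -- the morphism `s : 𝒥 → G`
  set s₀ : J₀ →ₗ[R₀] G.N₀ := p.1.1 with hs₀def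
  set s₁ : J₁ →ₗ[R₁] G.N₁ := p.1.2 with hs₁def
  let s : GlueHom (ofIdeals K hJ) G := homOfSection (ofIdeals K hJ) G s₀ s₁ hmem
  have hi₀ : Function.Injective s.f₀ := injective_of_ne_zero_ideal J₀ s₀ hs₀
  have hi₁ : Function.Injective s.f₁ := injective_of_ne_zero_ideal J₁ s₁ hs₁
  have hi₀₁ : Function.Injective s.f₀₁ := s.f₀₁_injective x hi₀
  -- the morphism `ι : ℋom(G, 𝒥) → O`
  have hι₀ : Function.Injective (iotaHom s).f₀ := iotaMap_injective s.f₀ hi₀
  have hι₁ : Function.Injective (iotaHom s).f₁ := iotaMap_injective s.f₁ hi₁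
  have hι₀₁ : Function.Injective (iotaHom s).f₀₁ := iotaMap_injective s.f₀₁ hi₀₁
  have hI := isCartierTriple_range (iotaHom s) hι₀ hι₁ hι₀₁
  have hne₀ : rangeI₀ (iotaHom s) ≠ ⊥ := by
    intro h0
    haveI : Module.Invertible R₀ (G.N₀ →ₗ[R₀] J₀) := invertible_hom
    haveI : Nontrivial (G.N₀ →ₗ[R₀] J₀) := nontrivial_of_invertible (R := R₀)
    obtain ⟨f, hf⟩ := exists_ne (0 : G.N₀ →ₗ[R₀] J₀)
    have : toRing₀ (iotaHom s) f ∈ rangeI₀ (iotaHom s) := ⟨f, rfl⟩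
    rw [h0, Submodule.mem_bot] at this
    exact hf (hι₀ (this.trans (map_zero _).symm))
  have hne₁ : rangeI₁ (iotaHom s) ≠ ⊥ := by
    intro h0
    haveI : Module.Invertible R₁ (G.N₁ →ₗ[R₁] J₁) := invertible_hom
    haveI : Nontrivial (G.N₁ →ₗ[R₁] J₁) := nontrivial_of_invertible (R := R₁)
    obtain ⟨f, hf⟩ := exists_ne (0 : G.N₁ →ₗ[R₁] J₁)
    have : toRing₁ (iotaHom s) f ∈ rangeI₁ (iotaHom s) := ⟨f, rfl⟩
    rw [h0, Submodule.mem_bot] at this
    exact hf (hι₁ (this.trans (map_zero _).symm))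
  refine ⟨rangeI₀ (iotaHom s), rangeI₁ (iotaHom s), rangeI₀₁ (iotaHom s), hI, hne₀, hne₁, ?_, ?_⟩
  · -- the isomorphism
    exact H265.isIso_trans (isIso_homDatum_homDatum G (ofIdeals K hJ))
      (homDatum_isIso_congr' (isIso_ofIdeals_range (iotaHom s) hι₀ hι₁ hι₀₁)
        (H265.isIso_refl _))
  · -- the degree
    obtain ⟨hJfc, hJeu⟩ := euler_ofIdeals x y hx hy hJ hO hJ₀ hJ₁
    haveI : Module.Finite K (R₀ ⧸ rangeI₀ (iotaHom s)) :=
      finite_quotient_of_ne_bot_of_finite x hx _ hne₀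
    haveI : Module.Finite K (R₁ ⧸ rangeI₁ (iotaHom s)) :=
      finite_quotient_of_ne_bot_of_finite y hy _ hne₁
    haveI : Module.Finite K (R₀₁ ⧸ rangeI₀₁ (iotaHom s)) := finite_quotient₀₁ x hx hI hne₀
    have key := euler_eq_of_range x s hi₀ hi₁
      (rangeI₀ (iotaHom s)) (rangeI₁ (iotaHom s)) (rangeI₀₁ (iotaHom s))
      (range_iotaMap_smul_top s.f₀).symm (range_iotaMap_smul_top s.f₁).symm
      (range_iotaMap_smul_top s.f₀₁).symm
    have h1 := (key.1 hJfc).2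
    rw [GlueDatum.degree]
    omega

end Field

end

end Fermat.Agent.S25.H267
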