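import Fermat.Agent.S25.H267.InvCalc
import Fermat.Agent.S25.H565.Section
import Fermat.Agent.S25.H747.GDHom
import Fermat.Agent.S25.H265.GDCIso

/-!
# S25 / AB-ALG, leaf AA6 (helper267): morphisms of gluing data attached to `ℋom`

General cospan `R₀ → R₀₁ ← R₁` of `A`-algebras, gluing data in the frozen language
(`DefsAlg`, `H747.homDatum`, `H747.ofIdeals`), morphisms = `H565.GlueHom`.

* `invertible₀₁`: `N₀₁` is invertible over `R₀₁`.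
* `homOfSection`: a global section of `ℋom(𝒢, G)` is a morphism `𝒢 → G`.
* `natHom`: the natural morphism `G → ℋom(O(-D), G)`.
* `iotaHom s`: for `s : 𝒥 → G` the morphism `ℋom(s, 𝒥) : ℋom(G, 𝒥) → ℋom(𝒥, 𝒥) = O`.
* `evHom`: the double dual morphism `G → ℋom(ℋom(G, 𝒥), 𝒥)`, an isomorphism.
* `isCartierTriple_range`, `isIso_ofIdeals_range`: an injective morphism `M → O` identifies
  `M` with the datum of the Cartier triple of its images.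
* `homDatum_isIso_congr_left`: `ℋom(−, 𝒥)` respects isomorphisms.
-/

set_option autoImplicit false
set_option linter.style.haveILetI false
set_option linter.unusedSectionVars false

universe u

namespace Fermat.Agent.S25.H267

open Fermat.Agent.S25 Fermat.Agent.S25.H565 Fermat.Agent.S25.H747

noncomputable section

variable {A R₀ R₁ R₀₁ : Type u} [CommRing A] [CommRing R₀] [CommRing R₁]
    [CommRing R₀₁] [Algebra A R₀] [Algebra A R₁] [Algebra A R₀₁] [Algebra R₀ R₀₁]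
    [Algebra R₁ R₀₁] [IsScalarTower A R₀ R₀₁] [IsScalarTower A R₁ R₀₁]

/-- `N₀₁` is an invertible `R₀₁`-module. -/
theorem invertible₀₁ (G : GlueDatum A R₀ R₁ R₀₁) : Module.Invertible R₀₁ G.N₀₁ :=
  haveI := G.invertible₀
  Module.Invertible.congr G.isBaseChange₀.equiv

section HomRes

variable (𝒢 G : GlueDatum A R₀ R₁ R₀₁)

/-- The restriction map of `ℋom(𝒢, G)` on the chart `0`, with explicit types. -/
def homRes₀ (φ : 𝒢.N₀ →ₗ[R₀] G.N₀) : 𝒢.N₀₁ →ₗ[R₀₁] G.N₀₁ :=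
  (homDatum 𝒢 G).r₀ φ

/-- The restriction map of `ℋom(𝒢, G)` on the chart `1`, with explicit types. -/
def homRes₁ (φ : 𝒢.N₁ →ₗ[R₁] G.N₁) : 𝒢.N₀₁ →ₗ[R₀₁] G.N₀₁ :=
  (homDatum 𝒢 G).r₁ φ

theorem homRes₀_apply (φ : 𝒢.N₀ →ₗ[R₀] G.N₀) (m : 𝒢.N₀) :
    homRes₀ 𝒢 G φ (𝒢.r₀ m) = G.r₀ (φ m) :=
  IsBaseChange.linearMapLeftRightHom_comp_apply 𝒢.isBaseChange₀ G.r₀ φ m

theorem homRes₁_apply (φ : 𝒢.N₁ →ₗ[R₁] G.N₁) (m : 𝒢.N₁) :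
    homRes₁ 𝒢 G φ (𝒢.r₁ m) = G.r₁ (φ m) :=
  IsBaseChange.linearMapLeftRightHom_comp_apply 𝒢.isBaseChange₁ G.r₁ φ m

theorem homRes₀_ext (φ : 𝒢.N₀ →ₗ[R₀] G.N₀)
    (ψ : 𝒢.N₀₁ →ₗ[R₀₁] G.N₀₁) (h : ∀ m, ψ (𝒢.r₀ m) = G.r₀ (φ m)) : ψ = homRes₀ 𝒢 G φ :=
  𝒢.isBaseChange₀.algHom_ext _ _ fun m => (h m).trans (homRes₀_apply 𝒢 G φ m).symm

theorem homRes₁_ext (φ : 𝒢.N₁ →ₗ[R₁] G.N₁)
    (ψ : 𝒢.N₀₁ →ₗ[R₀₁] G.N₀₁) (h : ∀ m, ψ (𝒢.r₁ m) = G.r₁ (φ m)) : ψ = homRes₁ 𝒢 G φ :=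
  𝒢.isBaseChange₁.algHom_ext _ _ fun m => (h m).trans (homRes₁_apply 𝒢 G φ m).symm

/-- A compatible pair of homomorphisms, i.e. a global section of `ℋom(𝒢, G)`, is a morphism
of gluing data. -/
def homOfSection (s₀ : 𝒢.N₀ →ₗ[R₀] G.N₀) (s₁ : 𝒢.N₁ →ₗ[R₁] G.N₁)
    (h : homRes₀ 𝒢 G s₀ = homRes₁ 𝒢 G s₁) : GlueHom 𝒢 G where
  f₀ := s₀
  f₁ := s₁
  f₀₁ := homRes₀ 𝒢 G s₀
  comm₀ := fun m => homRes₀_apply 𝒢 G s₀ m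
  comm₁ := fun m => by rw [h]; exact homRes₁_apply 𝒢 G s₁ m

end HomRes

section NatHom

variable {J₀ : Ideal R₀} {J₁ : Ideal R₁} {J₀₁ : Ideal R₀₁} (hJ : IsCartierTriple J₀ J₁ J₀₁)
  (G : GlueDatum A R₀ R₁ R₀₁)

theorem natMap_r₀ (n : G.N₀) :
    natMap J₀₁ G.N₀₁ (G.r₀ n) = homRes₀ (ofIdeals A hJ) G (natMap J₀ G.N₀ n) := by
  refine homRes₀_ext (ofIdeals A hJ) G (natMap J₀ G.N₀ n) (natMap J₀₁ G.N₀₁ (G.r₀ n))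
    fun (j : J₀) => ?_
  show ((idealRes J₀ J₀₁ hJ.map₀.le j : J₀₁) : R₀₁) • G.r₀ n = G.r₀ ((j : R₀) • n)
  rw [map_smul, idealRes_coe, algebraMap_smul]

theorem natMap_r₁ (n : G.N₁) :
    natMap J₀₁ G.N₀₁ (G.r₁ n) = homRes₁ (ofIdeals A hJ) G (natMap J₁ G.N₁ n) := by
  refine homRes₁_ext (ofIdeals A hJ) G (natMap J₁ G.N₁ n) (natMap J₀₁ G.N₀₁ (G.r₁ n))
    fun (j : J₁) => ?_
  show ((idealRes J₁ J₀₁ hJ.map₁.le j : J₀₁) : R₀₁) • G.r₁ n = G.r₁ ((j : R₁) • n)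
  rw [map_smul, idealRes_coe, algebraMap_smul]

/-- The natural morphism `G → ℋom(O(-D), G)`, `n ↦ (j ↦ j • n)`. -/
def natHom : GlueHom G (homDatum (ofIdeals A hJ) G) where
  f₀ := natMap J₀ G.N₀
  f₁ := natMap J₁ G.N₁
  f₀₁ := natMap J₀₁ G.N₀₁
  comm₀ := fun n => natMap_r₀ hJ G n
  comm₁ := fun n => natMap_r₁ hJ G n

end NatHom

section IotaHom

variable {𝒥 G : GlueDatum A R₀ R₁ R₀₁} (s : GlueHom 𝒥 G)

/-- `ι₀ = Hom(s₀, 𝒥₀)`. -/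
def iota₀ : (G.N₀ →ₗ[R₀] 𝒥.N₀) →ₗ[R₀] R₀ :=
  haveI := G.invertible₀
  haveI := 𝒥.invertible₀
  iotaMap s.f₀

/-- `ι₁ = Hom(s₁, 𝒥₁)`. -/
def iota₁ : (G.N₁ →ₗ[R₁] 𝒥.N₁) →ₗ[R₁] R₁ :=
  haveI := G.invertible₁
  haveI := 𝒥.invertible₁
  iotaMap s.f₁

/-- `ι₀₁ = Hom(s₀₁, 𝒥₀₁)`. -/
def iota₀₁ : (G.N₀₁ →ₗ[R₀₁] 𝒥.N₀₁) →ₗ[R₀₁] R₀₁ :=
  haveI := invertible₀₁ G
  haveI := invertible₀₁ 𝒥
  iotaMap s.f₀₁

theorem iota₀_smul (φ : G.N₀ →ₗ[R₀] 𝒥.N₀) (j : 𝒥.N₀) : iota₀ s φ • j = φ (s.f₀ j) :=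
  haveI := G.invertible₀
  haveI := 𝒥.invertible₀
  iotaMap_smul s.f₀ φ j

theorem iota₁_smul (φ : G.N₁ →ₗ[R₁] 𝒥.N₁) (j : 𝒥.N₁) : iota₁ s φ • j = φ (s.f₁ j) :=
  haveI := G.invertible₁
  haveI := 𝒥.invertible₁
  iotaMap_smul s.f₁ φ j

theorem iota₀₁_smul (φ : G.N₀₁ →ₗ[R₀₁] 𝒥.N₀₁) (j : 𝒥.N₀₁) :
    iota₀₁ s φ • j = φ (s.f₀₁ j) :=
  haveI := invertible₀₁ G
  haveI := invertible₀₁ 𝒥
  iotaMap_smul s.f₀₁ φ j

theorem iota₀₁_r₀ (φ : G.N₀ →ₗ[R₀] 𝒥.N₀) :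
    iota₀₁ s (homRes₀ G 𝒥 φ) = algebraMap R₀ R₀₁ (iota₀ s φ) := by
  haveI := invertible₀₁ 𝒥
  refine eq_of_forall_smul_eq (J := 𝒥.N₀₁) fun j => ?_
  rw [iota₀₁_smul]
  have key : (homRes₀ G 𝒥 φ) ∘ₗ s.f₀₁ =
      (algebraMap R₀ R₀₁ (iota₀ s φ)) • (LinearMap.id : 𝒥.N₀₁ →ₗ[R₀₁] 𝒥.N₀₁) := by
    refine 𝒥.isBaseChange₀.algHom_ext _ _ fun m => ?_
    rw [LinearMap.comp_apply, s.comm₀, homRes₀_apply, ← iota₀_smul, map_smul,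
      LinearMap.smul_apply, LinearMap.id_apply, algebraMap_smul]
  exact LinearMap.congr_fun key j

theorem iota₀₁_r₁ (φ : G.N₁ →ₗ[R₁] 𝒥.N₁) :
    iota₀₁ s (homRes₁ G 𝒥 φ) = algebraMap R₁ R₀₁ (iota₁ s φ) := by
  haveI := invertible₀₁ 𝒥
  refine eq_of_forall_smul_eq (J := 𝒥.N₀₁) fun j => ?_
  rw [iota₀₁_smul]
  have key : (homRes₁ G 𝒥 φ) ∘ₗ s.f₀₁ =
      (algebraMap R₁ R₀₁ (iota₁ s φ)) • (LinearMap.id : 𝒥.N₀₁ →ₗ[R₀₁] 𝒥.N₀₁) := by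
    refine 𝒥.isBaseChange₁.algHom_ext _ _ fun m => ?_
    rw [LinearMap.comp_apply, s.comm₁, homRes₁_apply, ← iota₁_smul, map_smul,
      LinearMap.smul_apply, LinearMap.id_apply, algebraMap_smul]
  exact LinearMap.congr_fun key j

/-- The morphism `ℋom(s, 𝒥) : ℋom(G, 𝒥) → ℋom(𝒥, 𝒥) = O`. -/
def iotaHom : GlueHom (homDatum G 𝒥) (GlueDatum.unit A R₀ R₁ R₀₁) where
  f₀ := iota₀ s
  f₁ := iota₁ s
  f₀₁ := iota₀₁ s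
  comm₀ := fun φ => iota₀₁_r₀ s φ
  comm₁ := fun φ => iota₀₁_r₁ s φ

end IotaHom

section EvHom

variable (G 𝒥 : GlueDatum A R₀ R₁ R₀₁)

theorem evalHomJ_r₀ (n : G.N₀) :
    evalHomJ R₀₁ G.N₀₁ 𝒥.N₀₁ (G.r₀ n) =
      homRes₀ (homDatum G 𝒥) 𝒥 (evalHomJ R₀ G.N₀ 𝒥.N₀ n) := by
  refine homRes₀_ext (homDatum G 𝒥) 𝒥 (evalHomJ R₀ G.N₀ 𝒥.N₀ n)
    (evalHomJ R₀₁ G.N₀₁ 𝒥.N₀₁ (G.r₀ n)) fun (φ : G.N₀ →ₗ[R₀] 𝒥.N₀) => ?_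
  exact homRes₀_apply G 𝒥 φ n

theorem evalHomJ_r₁ (n : G.N₁) :
    evalHomJ R₀₁ G.N₀₁ 𝒥.N₀₁ (G.r₁ n) =
      homRes₁ (homDatum G 𝒥) 𝒥 (evalHomJ R₁ G.N₁ 𝒥.N₁ n) := by
  refine homRes₁_ext (homDatum G 𝒥) 𝒥 (evalHomJ R₁ G.N₁ 𝒥.N₁ n)
    (evalHomJ R₀₁ G.N₀₁ 𝒥.N₀₁ (G.r₁ n)) fun (φ : G.N₁ →ₗ[R₁] 𝒥.N₁) => ?_
  exact homRes₁_apply G 𝒥 φ n

/-- The double dual morphism `G → ℋom(ℋom(G, 𝒥), 𝒥)`. -/
def evHom : GlueHom G (homDatum (homDatum G 𝒥) 𝒥) where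
  f₀ := evalHomJ R₀ G.N₀ 𝒥.N₀
  f₁ := evalHomJ R₁ G.N₁ 𝒥.N₁
  f₀₁ := evalHomJ R₀₁ G.N₀₁ 𝒥.N₀₁
  comm₀ := fun n => evalHomJ_r₀ G 𝒥 n
  comm₁ := fun n => evalHomJ_r₁ G 𝒥 n

/-- **Double dual.** `G ≅ ℋom(ℋom(G, 𝒥), 𝒥)`. -/
theorem isIso_homDatum_homDatum : G.IsIso (homDatum (homDatum G 𝒥) 𝒥) := by
  haveI := G.invertible₀
  haveI := G.invertible₁
  haveI := 𝒥.invertible₀
  haveI := 𝒥.invertible₁
  haveI := invertible₀₁ G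
  haveI := invertible₀₁ 𝒥
  exact (evHom G 𝒥).isIso_of_bijective evalHomJ_bijective evalHomJ_bijective
    evalHomJ_bijective

end EvHom

section Congr

variable {G G₁ G' G₁' : GlueDatum A R₀ R₁ R₀₁}

theorem iso_symm_r₀ (e : GlueDatum.Iso G G₁) (m : G₁.N₀) :
    e.e₀₁.symm (G₁.r₀ m) = G.r₀ (e.e₀.symm m) := by
  rw [LinearEquiv.symm_apply_eq, e.comm₀, LinearEquiv.apply_symm_apply]

theorem iso_symm_r₁ (e : GlueDatum.Iso G G₁) (m : G₁.N₁) :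
    e.e₀₁.symm (G₁.r₁ m) = G.r₁ (e.e₁.symm m) := by
  rw [LinearEquiv.symm_apply_eq, e.comm₁, LinearEquiv.apply_symm_apply]

/-- **G2.** `ℋom` respects isomorphisms. -/
theorem homDatum_isIso_congr' (h : G.IsIso G₁) (h' : G'.IsIso G₁') :
    (homDatum G G').IsIso (homDatum G₁ G₁') := by
  obtain ⟨e⟩ := h
  obtain ⟨e'⟩ := h'
  refine ⟨{ e₀ := LinearEquiv.arrowCongr e.e₀ e'.e₀
            e₁ := LinearEquiv.arrowCongr e.e₁ e'.e₁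
            e₀₁ := LinearEquiv.arrowCongr e.e₀₁ e'.e₀₁
            comm₀ := fun (φ : G.N₀ →ₗ[R₀] G'.N₀) => ?_
            comm₁ := fun (φ : G.N₁ →ₗ[R₁] G'.N₁) => ?_ }⟩
  · refine homRes₀_ext G₁ G₁' (LinearEquiv.arrowCongr e.e₀ e'.e₀ φ)
      (LinearEquiv.arrowCongr e.e₀₁ e'.e₀₁ (homRes₀ G G' φ)) fun m => ?_
    rw [LinearEquiv.arrowCongr_apply, LinearEquiv.arrowCongr_apply, iso_symm_r₀,
      homRes₀_apply, e'.comm₀]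
  · refine homRes₁_ext G₁ G₁' (LinearEquiv.arrowCongr e.e₁ e'.e₁ φ)
      (LinearEquiv.arrowCongr e.e₀₁ e'.e₀₁ (homRes₁ G G' φ)) fun m => ?_
    rw [LinearEquiv.arrowCongr_apply, LinearEquiv.arrowCongr_apply, iso_symm_r₁,
      homRes₁_apply, e'.comm₁]

end Congr

section Range

variable {M : GlueDatum A R₀ R₁ R₀₁} (φ : GlueHom M (GlueDatum.unit A R₀ R₁ R₀₁))

/-- The component of a morphism into the unit datum, with explicit target. -/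
def toRing₀ : M.N₀ →ₗ[R₀] R₀ := φ.f₀

/-- The component of a morphism into the unit datum, with explicit target. -/
def toRing₁ : M.N₁ →ₗ[R₁] R₁ := φ.f₁

/-- The component of a morphism into the unit datum, with explicit target. -/
def toRing₀₁ : M.N₀₁ →ₗ[R₀₁] R₀₁ := φ.f₀₁

theorem toRing₀₁_r₀ (m : M.N₀) : toRing₀₁ φ (M.r₀ m) = algebraMap R₀ R₀₁ (toRing₀ φ m) :=
  φ.comm₀ m

theorem toRing₀₁_r₁ (m : M.N₁) : toRing₀₁ φ (M.r₁ m) = algebraMap R₁ R₀₁ (toRing₁ φ m) :=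
  φ.comm₁ m

/-- The image ideal on the chart `0`. -/
def rangeI₀ : Ideal R₀ := LinearMap.range (toRing₀ φ)

/-- The image ideal on the chart `1`. -/
def rangeI₁ : Ideal R₁ := LinearMap.range (toRing₁ φ)

/-- The image ideal on the intersection. -/
def rangeI₀₁ : Ideal R₀₁ := LinearMap.range (toRing₀₁ φ)

theorem map_rangeI₀ : (rangeI₀ φ).map (algebraMap R₀ R₀₁) = rangeI₀₁ φ := by
  apply le_antisymm
  · rw [Ideal.map_le_iff_le_comap]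
    rintro _ ⟨m, rfl⟩
    exact ⟨M.r₀ m, toRing₀₁_r₀ φ m⟩
  · rintro _ ⟨m, rfl⟩
    refine M.isBaseChange₀.inductionOn m
      (fun m => toRing₀₁ φ m ∈ (rangeI₀ φ).map (algebraMap R₀ R₀₁)) ?_ ?_ ?_ ?_
    · simp
    · intro m
      rw [toRing₀₁_r₀]
      exact Ideal.mem_map_of_mem _ ⟨m, rfl⟩
    · intro c m hm
      rw [map_smul]
      exact Ideal.mul_mem_left _ c hm
    · intro m m' hm hm'
      rw [map_add]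
      exact Ideal.add_mem _ hm hm'

theorem map_rangeI₁ : (rangeI₁ φ).map (algebraMap R₁ R₀₁) = rangeI₀₁ φ := by
  apply le_antisymm
  · rw [Ideal.map_le_iff_le_comap]
    rintro _ ⟨m, rfl⟩
    exact ⟨M.r₁ m, toRing₀₁_r₁ φ m⟩
  · rintro _ ⟨m, rfl⟩
    refine M.isBaseChange₁.inductionOn m
      (fun m => toRing₀₁ φ m ∈ (rangeI₁ φ).map (algebraMap R₁ R₀₁)) ?_ ?_ ?_ ?_
    · simp
    · intro m
      rw [toRing₀₁_r₁]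
      exact Ideal.mem_map_of_mem _ ⟨m, rfl⟩
    · intro c m hm
      rw [map_smul]
      exact Ideal.mul_mem_left _ c hm
    · intro m m' hm hm'
      rw [map_add]
      exact Ideal.add_mem _ hm hm'

variable (h₀ : Function.Injective φ.f₀) (h₁ : Function.Injective φ.f₁)
  (h₀₁ : Function.Injective φ.f₀₁)

/-- `M₀ ≃ I₀`. -/
def rangeEquiv₀ : M.N₀ ≃ₗ[R₀] rangeI₀ φ := LinearEquiv.ofInjective (toRing₀ φ) h₀

/-- `M₁ ≃ I₁`. -/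
def rangeEquiv₁ : M.N₁ ≃ₗ[R₁] rangeI₁ φ := LinearEquiv.ofInjective (toRing₁ φ) h₁

/-- `M₀₁ ≃ I₀₁`. -/
def rangeEquiv₀₁ : M.N₀₁ ≃ₗ[R₀₁] rangeI₀₁ φ := LinearEquiv.ofInjective (toRing₀₁ φ) h₀₁

theorem rangeEquiv₀_coe (m : M.N₀) : (rangeEquiv₀ φ h₀ m : R₀) = toRing₀ φ m := rfl

theorem rangeEquiv₁_coe (m : M.N₁) : (rangeEquiv₁ φ h₁ m : R₁) = toRing₁ φ m := rfl

theorem rangeEquiv₀₁_coe (m : M.N₀₁) : (rangeEquiv₀₁ φ h₀₁ m : R₀₁) = toRing₀₁ φ m := rfl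

include h₀ h₁ h₀₁ in
/-- The images of an injective morphism `M → O` form a Cartier triple. -/
theorem isCartierTriple_range : IsCartierTriple (rangeI₀ φ) (rangeI₁ φ) (rangeI₀₁ φ) where
  map₀ := map_rangeI₀ φ
  map₁ := map_rangeI₁ φ
  inv₀ := haveI := M.invertible₀; Module.Invertible.congr (rangeEquiv₀ φ h₀)
  inv₁ := haveI := M.invertible₁; Module.Invertible.congr (rangeEquiv₁ φ h₁)
  bc₀ := by
    refine (IsBaseChange.iff_of_equiv_comm (rangeEquiv₀ φ h₀) (rangeEquiv₀₁ φ h₀₁) ?_).mp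
      M.isBaseChange₀
    ext m
    exact (toRing₀₁_r₀ φ m).symm
  bc₁ := by
    refine (IsBaseChange.iff_of_equiv_comm (rangeEquiv₁ φ h₁) (rangeEquiv₀₁ φ h₀₁) ?_).mp
      M.isBaseChange₁
    ext m
    exact (toRing₀₁_r₁ φ m).symm

/-- An injective morphism `M → O` identifies `M` with the datum of its image triple. -/
theorem isIso_ofIdeals_range :
    M.IsIso (ofIdeals A (isCartierTriple_range φ h₀ h₁ h₀₁)) :=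
  ⟨{ e₀ := rangeEquiv₀ φ h₀
     e₁ := rangeEquiv₁ φ h₁
     e₀₁ := rangeEquiv₀₁ φ h₀₁
     comm₀ := fun m => Subtype.ext (toRing₀₁_r₀ φ m)
     comm₁ := fun m => Subtype.ext (toRing₀₁_r₁ φ m) }⟩

end Range

end

end Fermat.Agent.S25.H267
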